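/-
S37 / P-E-d (helper81): class separation and pole clearing on a region.

Setting: a `Setup K A F O x` of Program J (S18), the residue-disc classes `H38.cls A x` of the base
function `x`, and helper36's abstract core (`S37/H36`).  A *region* is the set of places whose class
lies in a set `T` of classes; the test functions on it are the Gauss-integral functions without
poles on it (`regOn`).

For every `T ≠ univ`:
* `sep_of_setup`  : the test functions separate the classes inside the region
  (by `x` if `none ∉ T`, by `(x - b)⁻¹` for a class `b ∉ T` otherwise);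
* `tau_of_setup`  : tube parameters can be chosen among the test functions
  (clear the poles of a tube parameter inside the region by Gauss units which are
  polynomials in `x`, resp. quotients `(β x - α) / (x - b)`);
* `cong_of_setup` : the hypothesis `hcong` of `H36.sub_mem_locOne_of_prod_congr`;
* `sub_mem_locOne_region` : `H36.sub_mem_locOne_of_prod_congr` on the region, with `hprod` as
  the only remaining hypothesis.
-/
import Fermat.Agent.S37.H36.ES
import Fermat.Agent.S18.H38.Exports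

set_option autoImplicit false

open AlgebraicCurve IntermediateField

noncomputable section

namespace Fermat.Agent.S37.H81

open Fermat.Agent.S37.H36
open Fermat.Agent.S18

variable {K : Type*} [Field K] {F : Type*} [Field F] [Algebra K F]

/-! ### Values at a place -/

section place

variable (P : Place K F)

/-- `f` takes the value `a` at `P`. -/
abbrev HasVal (f : F) (a : K) : Prop := f - algebraMap K F a ∈ P.toValuationSubring.nonunits

variable {P}

theorem hasVal_const (a : K) : HasVal P (algebraMap K F a) a := by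
  show algebraMap K F a - algebraMap K F a ∈ _
  rw [sub_self]
  exact P.toValuationSubring.nonunits.zero_mem

theorem hasVal_of_ord_pos {f : F} {c : K} (h : 0 < P.ord (f - algebraMap K F c)) :
    HasVal P f c :=
  (Fermat.Agent.S24.H94.ord_pos_iff_mem_nonunits P
    (Fermat.Agent.S24.H94.ne_zero_of_ord_pos P h)).mp h

theorem HasVal.mem {f : F} {a : K} (h : HasVal P f a) : f ∈ P.toValuationSubring :=
  mem_of_sub_mem_nonunits P h

theorem HasVal.ord_nonneg {f : F} {a : K} (h : HasVal P f a) : 0 ≤ P.ord f :=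
  ord_nonneg_of_mem' P h.mem

theorem HasVal.add {f g : F} {a b : K} (hf : HasVal P f a) (hg : HasVal P g b) :
    HasVal P (f + g) (a + b) := by
  have h : f + g - algebraMap K F (a + b) = (f - algebraMap K F a) + (g - algebraMap K F b) := by
    rw [map_add]
    ring
  show f + g - algebraMap K F (a + b) ∈ _
  rw [h]
  exact P.toValuationSubring.nonunits.add_mem hf hg

theorem HasVal.sub {f g : F} {a b : K} (hf : HasVal P f a) (hg : HasVal P g b) :
    HasVal P (f - g) (a - b) := by
  have h : f - g - algebraMap K F (a - b) = (f - algebraMap K F a) - (g - algebraMap K F b) := by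
    rw [map_sub]
    ring
  show f - g - algebraMap K F (a - b) ∈ _
  rw [h]
  exact P.toValuationSubring.nonunits.sub_mem hf hg

theorem HasVal.mul {f g : F} {a b : K} (hf : HasVal P f a) (hg : HasVal P g b) :
    HasVal P (f * g) (a * b) :=
  mul_sub_mem_nonunits P hf hg

theorem HasVal.ne_zero {f : F} {a : K} (hf : HasVal P f a) (ha : a ≠ 0) : f ≠ 0 := by
  rintro rfl
  have h1 : algebraMap K F a ∈ P.toValuationSubring.nonunits := by
    have h2 := P.toValuationSubring.nonunits.neg_mem hf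
    rwa [zero_sub, neg_neg] at h2
  exact ha (const_eq_zero_of_mem_nonunits P h1)

theorem HasVal.inv_mem {f : F} {a : K} (hf : HasVal P f a) (ha : a ≠ 0) :
    f⁻¹ ∈ P.toValuationSubring := by
  by_contra hinv
  have h1 : f ∈ P.toValuationSubring.nonunits :=
    P.toValuationSubring.mem_nonunits_iff_or.mpr (Or.inr hinv)
  have h2 : algebraMap K F a ∈ P.toValuationSubring.nonunits := by
    have h3 := P.toValuationSubring.nonunits.sub_mem h1 hf
    rwa [sub_sub_cancel] at h3
  exact ha (const_eq_zero_of_mem_nonunits P h2)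

theorem HasVal.inv {f : F} {a : K} (hf : HasVal P f a) (ha : a ≠ 0) : HasVal P f⁻¹ a⁻¹ := by
  have hf0 : f ≠ 0 := hf.ne_zero ha
  have haF : algebraMap K F a ≠ 0 := by simpa using ha
  have h : f⁻¹ - algebraMap K F a⁻¹ = -((f - algebraMap K F a) * (f⁻¹ * algebraMap K F a⁻¹)) := by
    rw [map_inv₀]
    field_simp
    ring
  show f⁻¹ - algebraMap K F a⁻¹ ∈ _
  rw [h]
  exact P.toValuationSubring.nonunits.neg_mem
    (nonunits_mul_mem hf (mul_mem (hf.inv_mem ha) (P.algebraMap_mem' _)))

theorem HasVal.div {f g : F} {a b : K} (hf : HasVal P f a) (hg : HasVal P g b) (hb : b ≠ 0) :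
    HasVal P (f / g) (a / b) := by
  rw [div_eq_mul_inv, div_eq_mul_inv]
  exact hf.mul (hg.inv hb)

theorem HasVal.ord_eq_zero {f : F} {a : K} (hf : HasVal P f a) (ha : a ≠ 0) : P.ord f = 0 := by
  have h1 := hf.ord_nonneg
  have h2 := ord_nonneg_of_mem' P (hf.inv_mem ha)
  rw [P.ord_inv] at h2
  omega

theorem HasVal.ord_pos {f : F} (hf : HasVal P f 0) (hf0 : f ≠ 0) : 0 < P.ord f := by
  have h : f ∈ P.toValuationSubring.nonunits := by
    have h1 : f - algebraMap K F 0 ∈ P.toValuationSubring.nonunits := hf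
    rwa [map_zero, sub_zero] at h1
  exact (mem_nonunits_iff_ord_pos P hf0).mp h

theorem HasVal.val_eq {f : F} {a : K} (hf : HasVal P f a) : val P f = a :=
  H36.val_eq P hf

end place

/-! ### Elementary facts on `A` -/

section constants

variable {A : ValuationSubring K}

theorem one_not_mem_nonunits : (1 : K) ∉ A.nonunits := by
  intro h
  rw [A.mem_nonunits_iff, map_one] at h
  exact lt_irrefl _ h

theorem one_sub_mul_ne_zero {b e : K} (hb : b ∈ A) (he : e ∈ A.nonunits) : 1 - b * e ≠ 0 := by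
  intro h
  have h1 : b * e ∈ A.nonunits := mul_mem_nonunits hb he
  have h2 : b * e = 1 := by linear_combination -h
  rw [h2] at h1
  exact one_not_mem_nonunits h1

theorem one_sub_mul_inv_mem {b e : K} (hb : b ∈ A) (he : e ∈ A.nonunits) : (1 - b * e)⁻¹ ∈ A := by
  have h1 : IsOneUnit A (1 - b * e) := by
    have h : 1 - b * e - 1 = -(b * e) := by ring
    rw [IsOneUnit, h]
    exact A.nonunits.neg_mem (mul_mem_nonunits hb he)
  exact h1.inv_mem

end constants

/-! ### Classes of places -/

section classes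

variable (A : ValuationSubring K) (x : F)

/-- Every place is finite (a centre in `A`) or at infinity (`x⁻¹` has a centre in `m_A`). -/
theorem cls_fin_or_inf [IsAlgClosed K] [Algebra.IsAlgebraic K⟮x⟯ F] (P : Place K F) :
    (∃ (c : K) (hc : c ∈ A), 0 < P.ord (x - algebraMap K F c) ∧
        H38.cls A x P = some (IsLocalRing.residue A ⟨c, hc⟩)) ∨
      (∃ e : K, e ∈ A.nonunits ∧ 0 < P.ord (x⁻¹ - algebraMap K F e) ∧ x ≠ 0 ∧
        H38.cls A x P = none) := by
  classical
  by_cases h : ∃ c : A, 0 < P.ord (x - algebraMap K F (c : K))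
  · left
    refine ⟨(h.choose : K), h.choose.2, h.choose_spec, ?_⟩
    unfold H38.cls
    rw [dif_pos h]
  · right
    have hnone : H38.cls A x P = none := by
      unfold H38.cls
      rw [dif_neg h]
    obtain ⟨e, he, hord⟩ := (H38.cls_eq_none_iff A x P).mp hnone
    rw [sub_zero] at he
    refine ⟨e, he, hord, ?_, hnone⟩
    rintro rfl
    rw [inv_zero, zero_sub, ← map_neg, ord_algebraMap] at hord
    exact lt_irrefl _ hord

variable {A x}

theorem cls_eq_some_of_center {P : Place K F} {c b : K} (hb : b ∈ A) (hcb : c - b ∈ A.nonunits)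
    (hc : 0 < P.ord (x - algebraMap K F c)) :
    H38.cls A x P = some (IsLocalRing.residue A ⟨b, hb⟩) :=
  (H38.cls_eq_some_iff A x hb P).mpr ⟨c, hcb, hc⟩

end classes

/-! ### The functions `(β x - α) / (x - b)` -/

section gfun

/-- `(β x - α) / (x - b)`. -/
def gfun (x : F) (α β b : K) : F :=
  (algebraMap K F β * x - algebraMap K F α) / (x - algebraMap K F b)

variable {x : F}

theorem gfun_hasVal_fin {P : Place K F} {c : K} (hc : HasVal P x c) (α β b : K) (hcb : c ≠ b) :
    HasVal P (gfun x α β b) ((β * c - α) / (c - b)) :=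
  (((hasVal_const β).mul hc).sub (hasVal_const α)).div (hc.sub (hasVal_const b))
    (sub_ne_zero.mpr hcb)

theorem gfun_hasVal_inf {P : Place K F} {e : K} (he : HasVal P x⁻¹ e) (hx : x ≠ 0) (α β b : K)
    (hbe : 1 - b * e ≠ 0) : HasVal P (gfun x α β b) ((β - α * e) / (1 - b * e)) := by
  have h1 : algebraMap K F β * x - algebraMap K F α =
      x * (algebraMap K F β - algebraMap K F α * x⁻¹) := by
    field_simp
  have h2 : x - algebraMap K F b = x * (algebraMap K F 1 - algebraMap K F b * x⁻¹) := by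
    rw [map_one]
    field_simp
  rw [gfun, h1, h2, mul_div_mul_left _ _ hx]
  exact ((hasVal_const β).sub ((hasVal_const α).mul he)).div
    ((hasVal_const 1).sub ((hasVal_const b).mul he)) hbe

variable {A : ValuationSubring K} {O : ValuationSubring F}

/-- A linear polynomial in `x` with coefficients in `A`, one of them a unit, is a Gauss unit. -/
theorem gauss_linear (hS : H74.Setup K A F O x) {α β : K} (hα : α ∈ A) (hβ : β ∈ A)
    (hu : (α ≠ 0 ∧ α⁻¹ ∈ A) ∨ (β ≠ 0 ∧ β⁻¹ ∈ A)) :
    algebraMap K F β * x - algebraMap K F α ∈ O ∧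
      (algebraMap K F β * x - algebraMap K F α)⁻¹ ∈ O := by
  have hcoeff : ∀ i, (Polynomial.C β * Polynomial.X - Polynomial.C α : Polynomial K).coeff i =
      β * (if 1 = i then 1 else 0) - if i = 0 then α else 0 := by
    intro i
    rw [Polynomial.coeff_sub, Polynomial.coeff_C_mul, Polynomial.coeff_X, Polynomial.coeff_C]
  have h := hS.gauss (Polynomial.C β * Polynomial.X - Polynomial.C α)
    (fun i => by
      rw [hcoeff]
      refine sub_mem (mul_mem hβ ?_) ?_
      · split_ifs
        exacts [A.one_mem, A.zero_mem]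
      · split_ifs
        exacts [hα, A.zero_mem])
    (by
      rcases hu with ⟨h0, h1⟩ | ⟨h0, h1⟩
      · refine ⟨0, ?_⟩
        rw [hcoeff]
        simp only [one_ne_zero, if_false, mul_zero, zero_sub, if_true, neg_ne_zero, inv_neg]
        exact ⟨h0, neg_mem h1⟩
      · refine ⟨1, ?_⟩
        rw [hcoeff]
        simp only [if_true, mul_one, one_ne_zero, if_false, sub_zero]
        exact ⟨h0, h1⟩)
  rw [map_sub, map_mul, Polynomial.aeval_C, Polynomial.aeval_C, Polynomial.aeval_X] at h
  exact h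

theorem sub_const_unit (hS : H74.Setup K A F O x) {c : K} (hc : c ∈ A) :
    x - algebraMap K F c ∈ O ∧ (x - algebraMap K F c)⁻¹ ∈ O := by
  have h := gauss_linear hS hc A.one_mem (Or.inr ⟨one_ne_zero, by rw [inv_one]; exact A.one_mem⟩)
  rwa [map_one, one_mul] at h

theorem gfun_unit (hS : H74.Setup K A F O x) {α β b : K} (hα : α ∈ A) (hβ : β ∈ A) (hb : b ∈ A)
    (hu : (α ≠ 0 ∧ α⁻¹ ∈ A) ∨ (β ≠ 0 ∧ β⁻¹ ∈ A)) :
    gfun x α β b ∈ O ∧ (gfun x α β b)⁻¹ ∈ O := by
  obtain ⟨h1, h2⟩ := gauss_linear hS hα hβ hu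
  obtain ⟨h3, h4⟩ := sub_const_unit hS hb
  constructor
  · rw [gfun, div_eq_mul_inv]
    exact mul_mem h1 h4
  · rw [gfun, inv_div, div_eq_mul_inv]
    exact mul_mem h3 h2

end gfun

/-! ### Regions and test functions -/

section region

variable (A : ValuationSubring K) (O : ValuationSubring F) (x : F)

/-- The region of a set `T` of classes: the places whose class lies in `T`. -/
def region (T : Set (Option (IsLocalRing.ResidueField A))) : Set (Place K F) :=
  {P | H38.cls A x P ∈ T}

/-- The test functions on a set `R` of places: Gauss-integral functions without poles on `R`. -/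
def regOn (R : Set (Place K F)) : Set F :=
  {y | y ∈ O ∧ ∀ P ∈ R, 0 ≤ P.ord y}

variable {A O x}

theorem mem_region {T : Set (Option (IsLocalRing.ResidueField A))} {P : Place K F} :
    P ∈ region A x T ↔ H38.cls A x P ∈ T := Iff.rfl

/-- A region is a union of classes. -/
theorem region_cls {T : Set (Option (IsLocalRing.ResidueField A))} :
    ∀ P ∈ region A x T, ∀ P' : Place K F, H38.cls A x P' = H38.cls A x P → P' ∈ region A x T := by
  intro P hP P' h
  rw [mem_region] at hP ⊢
  rw [h]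
  exact hP

theorem zero_mem_regOn (R : Set (Place K F)) : (0 : F) ∈ regOn O R :=
  ⟨O.zero_mem, fun P _ => by rw [Place.ord_zero]⟩

theorem add_mem_regOn {R : Set (Place K F)} :
    ∀ y ∈ regOn O R, ∀ y' ∈ regOn O R, y + y' ∈ regOn O R := by
  intro y hy y' hy'
  refine ⟨O.add_mem _ _ hy.1 hy'.1, fun P hP => ?_⟩
  exact ord_nonneg_of_mem' P (add_mem (mem_of_ord_nonneg P (hy.2 P hP))
    (mem_of_ord_nonneg P (hy'.2 P hP)))

theorem smul_mem_regOn {R : Set (Place K F)} (hmem : ∀ a : K, algebraMap K F a ∈ O ↔ a ∈ A) :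
    ∀ a ∈ A, ∀ y ∈ regOn O R, algebraMap K F a * y ∈ regOn O R := by
  intro a ha y hy
  refine ⟨O.mul_mem _ _ ((hmem a).mpr ha) hy.1, fun P hP => ?_⟩
  exact ord_nonneg_of_mem' P (mul_mem (P.algebraMap_mem' a) (mem_of_ord_nonneg P (hy.2 P hP)))

theorem regOn_subset {R : Set (Place K F)} : ∀ y ∈ regOn O R, y ∈ O := fun _ hy => hy.1

theorem regOn_reg {R : Set (Place K F)} : ∀ y ∈ regOn O R, ∀ P ∈ R, 0 ≤ P.ord y :=
  fun _ hy => hy.2

/-- A proper set of classes misses the class at infinity or a finite class. -/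
theorem exists_not_mem_of_ne_univ {T : Set (Option (IsLocalRing.ResidueField A))}
    (hT : T ≠ Set.univ) :
    none ∉ T ∨ ∃ (b : K) (hb : b ∈ A), some (IsLocalRing.residue A ⟨b, hb⟩) ∉ T := by
  obtain ⟨d, hd⟩ := (Set.ne_univ_iff_exists_notMem T).mp hT
  rcases d with _ | r
  · exact Or.inl hd
  · obtain ⟨⟨b, hb⟩, rfl⟩ := IsLocalRing.residue_surjective r
    exact Or.inr ⟨b, hb, hd⟩

end region

/-! ### Pole clearing and separation -/

section main

variable [IsAlgClosed K] {A : ValuationSubring K} {O : ValuationSubring F} {x : F}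

/-- `(β x - α) / (x - b)` has no poles on a region which avoids the class of `b`. -/
theorem gfun_ord_nonneg [Algebra.IsAlgebraic K⟮x⟯ F]
    {T : Set (Option (IsLocalRing.ResidueField A))} {b : K} (hb : b ∈ A)
    (hbT : some (IsLocalRing.residue A ⟨b, hb⟩) ∉ T) (α β : K) (P' : Place K F)
    (hP' : H38.cls A x P' ∈ T) : 0 ≤ P'.ord (gfun x α β b) := by
  rcases cls_fin_or_inf A x P' with ⟨c', hc', hc'P, hcls'⟩ | ⟨e', he', he'P, hx0', -⟩
  · have hc'b : c' ≠ b := by
      rintro rfl
      exact hbT (hcls' ▸ hP')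
    exact (gfun_hasVal_fin (hasVal_of_ord_pos hc'P) α β b hc'b).ord_nonneg
  · exact (gfun_hasVal_inf (hasVal_of_ord_pos he'P) hx0' α β b
      (one_sub_mul_ne_zero hb he')).ord_nonneg

/-- **Clearing functions.** For a place `Q` of the region of `T ≠ univ` and a class `d ∈ T`
different from the class of `Q`: a Gauss unit with a zero at `Q`, without poles on the region and
without zeros on `d`. -/
theorem exists_clear (hS : H74.Setup K A F O x) {T : Set (Option (IsLocalRing.ResidueField A))}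
    (hT : T ≠ Set.univ) (Q : Place K F) (hQ : H38.cls A x Q ∈ T)
    (d : Option (IsLocalRing.ResidueField A)) (hd : d ∈ T) (hdQ : d ≠ H38.cls A x Q) :
    ∃ r : F, r ∈ O ∧ r⁻¹ ∈ O ∧ r ≠ 0 ∧ 0 < Q.ord r ∧
      (∀ P' : Place K F, H38.cls A x P' ∈ T → 0 ≤ P'.ord r) ∧
      (∀ P' : Place K F, H38.cls A x P' = d → P'.ord r = 0) := by
  have := hS.finite
  have hxc : ∀ a : K, x ≠ algebraMap K F a := fun a => Fermat.Agent.S24.H94.ne_algebraMap x Q a
  have hone : (1 : K) ≠ 0 ∧ (1 : K)⁻¹ ∈ A := ⟨one_ne_zero, by rw [inv_one]; exact A.one_mem⟩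
  by_cases hnone : none ∈ T
  · -- a finite class `b` outside `T`
    obtain ⟨b, hb, hbT⟩ := (exists_not_mem_of_ne_univ hT).resolve_left (not_not.mpr hnone)
    have hfinb : ∀ (P' : Place K F) (c' : K) (hc' : c' ∈ A),
        H38.cls A x P' = some (IsLocalRing.residue A ⟨c', hc'⟩) → H38.cls A x P' ∈ T →
          c' ≠ b := by
      rintro P' c' hc' hcls hP'T rfl
      exact hbT (hcls ▸ hP'T)
    rcases cls_fin_or_inf A x Q with ⟨c, hc, hcQ, hclsQ⟩ | ⟨e, he, heQ, hx0, hclsQ⟩
    · -- `Q` finite: `r = (x - c) / (x - b)`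
      have hcb : c ≠ b := hfinb Q c hc hclsQ hQ
      have hu := gfun_unit hS hc A.one_mem hb (Or.inr hone)
      have hr0 : gfun x c 1 b ≠ 0 := by
        rw [gfun, map_one, one_mul]
        exact div_ne_zero (sub_ne_zero.mpr (hxc c)) (sub_ne_zero.mpr (hxc b))
      have hpos : 0 < Q.ord (gfun x c 1 b) := by
        have h := gfun_hasVal_fin (hasVal_of_ord_pos hcQ) c 1 b hcb
        rw [one_mul, sub_self, zero_div] at h
        exact h.ord_pos hr0
      refine ⟨gfun x c 1 b, hu.1, hu.2, hr0, hpos, gfun_ord_nonneg hb hbT c 1, ?_⟩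
      intro P' hP'
      have hP'T : H38.cls A x P' ∈ T := hP' ▸ hd
      rcases cls_fin_or_inf A x P' with ⟨c', hc', hc'P, hcls'⟩ | ⟨e', he', he'P, hx0', hcls'⟩
      · have hc'b := hfinb P' c' hc' hcls' hP'T
        have hc'c : c' ≠ c := by
          rintro rfl
          exact hdQ (hP'.symm.trans (hcls'.trans hclsQ.symm))
        refine (gfun_hasVal_fin (hasVal_of_ord_pos hc'P) c 1 b hc'b).ord_eq_zero ?_
        rw [one_mul]
        exact div_ne_zero (sub_ne_zero.mpr hc'c) (sub_ne_zero.mpr hc'b)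
      · exact (gfun_hasVal_inf (hasVal_of_ord_pos he'P) hx0' c 1 b
          (one_sub_mul_ne_zero hb he')).ord_eq_zero
            (div_ne_zero (one_sub_mul_ne_zero hc he') (one_sub_mul_ne_zero hb he'))
    · -- `Q` at infinity: `r = (e x - 1) / (x - b)`
      have heA : e ∈ A := A.nonunits_subset he
      have hu := gfun_unit hS A.one_mem heA hb (Or.inl hone)
      have hr0 : gfun x 1 e b ≠ 0 := by
        rw [gfun]
        refine div_ne_zero ?_ (sub_ne_zero.mpr (hxc b))
        intro h0
        rw [map_one] at h0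
        by_cases he0 : e = 0
        · rw [he0, map_zero, zero_mul, zero_sub] at h0
          exact one_ne_zero (neg_eq_zero.mp h0)
        · have heF : algebraMap K F e ≠ 0 := by simpa using he0
          have hx : x = algebraMap K F e⁻¹ := by
            rw [map_inv₀]
            field_simp
            linear_combination h0
          exact hxc _ hx
      have hpos : 0 < Q.ord (gfun x 1 e b) := by
        have h := gfun_hasVal_inf (hasVal_of_ord_pos heQ) hx0 1 e b (one_sub_mul_ne_zero hb he)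
        rw [one_mul, sub_self, zero_div] at h
        exact h.ord_pos hr0
      refine ⟨gfun x 1 e b, hu.1, hu.2, hr0, hpos, gfun_ord_nonneg hb hbT 1 e, ?_⟩
      intro P' hP'
      have hP'T : H38.cls A x P' ∈ T := hP' ▸ hd
      rcases cls_fin_or_inf A x P' with ⟨c', hc', hc'P, hcls'⟩ | ⟨e', he', he'P, hx0', hcls'⟩
      · have hc'b := hfinb P' c' hc' hcls' hP'T
        refine (gfun_hasVal_fin (hasVal_of_ord_pos hc'P) 1 e b hc'b).ord_eq_zero ?_
        refine div_ne_zero ?_ (sub_ne_zero.mpr hc'b)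
        intro h
        exact one_sub_mul_ne_zero hc' he (by linear_combination -h)
      · exact absurd (hP'.symm.trans (hcls'.trans hclsQ.symm)) hdQ
  · -- `none ∉ T`: `r = x - c`
    have hfin : ∀ P' : Place K F, H38.cls A x P' ∈ T →
        ∃ (c' : K) (hc' : c' ∈ A), 0 < P'.ord (x - algebraMap K F c') ∧
          H38.cls A x P' = some (IsLocalRing.residue A ⟨c', hc'⟩) := by
      intro P' hP'
      rcases cls_fin_or_inf A x P' with h | ⟨e', -, -, -, hcls'⟩
      · exact h
      · exact absurd (hcls' ▸ hP') hnone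
    obtain ⟨c, hc, hcQ, hclsQ⟩ := hfin Q hQ
    have hu := sub_const_unit hS hc
    refine ⟨x - algebraMap K F c, hu.1, hu.2, sub_ne_zero.mpr (hxc c), hcQ, ?_, ?_⟩
    · intro P' hP'
      obtain ⟨c', hc', hc'P, -⟩ := hfin P' hP'
      exact ((hasVal_of_ord_pos hc'P).sub (hasVal_const c)).ord_nonneg
    · intro P' hP'
      obtain ⟨c', hc', hc'P, hcls'⟩ := hfin P' (hP' ▸ hd)
      have hc'c : c' ≠ c := by
        rintro rfl
        exact hdQ (hP'.symm.trans (hcls'.trans hclsQ.symm))
      exact ((hasVal_of_ord_pos hc'P).sub (hasVal_const c)).ord_eq_zero (sub_ne_zero.mpr hc'c)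

/-- **(hsep)** The test functions of the region of `T ≠ univ` separate its classes. -/
theorem sep_of_setup (hS : H74.Setup K A F O x) {T : Set (Option (IsLocalRing.ResidueField A))}
    (hT : T ≠ Set.univ) :
    ∀ P ∈ region A x T, ∀ Q ∈ region A x T,
      (∀ y ∈ regOn O (region A x T), val P y - val Q y ∈ A.nonunits) →
        H38.cls A x Q = H38.cls A x P := by
  have := hS.finite
  intro P hP Q hQ h
  rw [mem_region] at hP hQ
  by_cases hnone : none ∈ T
  · obtain ⟨b, hb, hbT⟩ := (exists_not_mem_of_ne_univ hT).resolve_left (not_not.mpr hnone)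
    have hfinb : ∀ (P' : Place K F) (c' : K) (hc' : c' ∈ A),
        H38.cls A x P' = some (IsLocalRing.residue A ⟨c', hc'⟩) → H38.cls A x P' ∈ T →
          c' ≠ b := by
      rintro P' c' hc' hcls hP'T rfl
      exact hbT (hcls ▸ hP'T)
    -- the separator `(x - b)⁻¹`
    have hy : gfun x (-1) 0 b ∈ regOn O (region A x T) :=
      ⟨(gfun_unit hS (neg_mem A.one_mem) A.zero_mem hb
        (Or.inl ⟨neg_ne_zero.mpr one_ne_zero, by
          rw [inv_neg, inv_one]; exact neg_mem A.one_mem⟩)).1,
        fun P' hP' => gfun_ord_nonneg hb hbT (-1) 0 P' hP'⟩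
    have hval := h _ hy
    have hvfin : ∀ (P' : Place K F) (c' : K), 0 < P'.ord (x - algebraMap K F c') → c' ≠ b →
        val P' (gfun x (-1) 0 b) = (c' - b)⁻¹ := by
      intro P' c' hc'P hc'b
      rw [(gfun_hasVal_fin (hasVal_of_ord_pos hc'P) (-1) 0 b hc'b).val_eq, zero_mul, zero_sub,
        neg_neg, one_div]
    have hvinf : ∀ (P' : Place K F) (e' : K), e' ∈ A.nonunits →
        0 < P'.ord (x⁻¹ - algebraMap K F e') → x ≠ 0 →
        val P' (gfun x (-1) 0 b) = e' * (1 - b * e')⁻¹ := by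
      intro P' e' he' he'P hx0
      rw [(gfun_hasVal_inf (hasVal_of_ord_pos he'P) hx0 (-1) 0 b
        (one_sub_mul_ne_zero hb he')).val_eq, neg_one_mul, zero_sub, neg_neg, div_eq_mul_inv]
    have hsmall : ∀ e' : K, e' ∈ A.nonunits → e' * (1 - b * e')⁻¹ ∈ A.nonunits :=
      fun e' he' => nonunits_mul_mem he' (one_sub_mul_inv_mem hb he')
    have hbig : ∀ c' : K, c' ∈ A → c' ≠ b → (c' - b)⁻¹ ∉ A.nonunits := by
      intro c' hc' hc'b h1
      have h5 := nonunits_mul_mem h1 (sub_mem hc' hb)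
      rw [inv_mul_cancel₀ (sub_ne_zero.mpr hc'b)] at h5
      exact one_not_mem_nonunits h5
    rcases cls_fin_or_inf A x P with ⟨c, hc, hcP, hclsP⟩ | ⟨e, he, heP, hx0, hclsP⟩
    · have hcb := hfinb P c hc hclsP hP
      rw [hvfin P c hcP hcb] at hval
      rcases cls_fin_or_inf A x Q with ⟨c', hc', hc'Q, hclsQ⟩ | ⟨e', he', he'Q, hx0', hclsQ⟩
      · have hc'b := hfinb Q c' hc' hclsQ hQ
        rw [hvfin Q c' hc'Q hc'b] at hval
        have hcc : c' - c ∈ A.nonunits := by
          have e1 : c' - c = ((c - b)⁻¹ - (c' - b)⁻¹) * ((c - b) * (c' - b)) := by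
            have h1 := sub_ne_zero.mpr hcb
            have h2 := sub_ne_zero.mpr hc'b
            field_simp
            ring
          rw [e1]
          exact nonunits_mul_mem hval (mul_mem (sub_mem hc hb) (sub_mem hc' hb))
        rw [hclsP]
        exact cls_eq_some_of_center hc hcc hc'Q
      · rw [hvinf Q e' he' he'Q hx0'] at hval
        have h3 := A.nonunits.add_mem hval (hsmall e' he')
        rw [sub_add_cancel] at h3
        exact absurd h3 (hbig c hc hcb)
    · rw [hvinf P e he heP hx0] at hval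
      rcases cls_fin_or_inf A x Q with ⟨c', hc', hc'Q, hclsQ⟩ | ⟨e', he', he'Q, hx0', hclsQ⟩
      · have hc'b := hfinb Q c' hc' hclsQ hQ
        rw [hvfin Q c' hc'Q hc'b] at hval
        have h3 := A.nonunits.sub_mem (hsmall e he) hval
        rw [sub_sub_cancel] at h3
        exact absurd h3 (hbig c' hc' hc'b)
      · rw [hclsP, hclsQ]
  · -- `none ∉ T`: the separator `x`
    have hfin : ∀ P' : Place K F, H38.cls A x P' ∈ T →
        ∃ (c' : K) (hc' : c' ∈ A), 0 < P'.ord (x - algebraMap K F c') ∧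
          H38.cls A x P' = some (IsLocalRing.residue A ⟨c', hc'⟩) := by
      intro P' hP'
      rcases cls_fin_or_inf A x P' with h | ⟨e', -, -, -, hcls'⟩
      · exact h
      · exact absurd (hcls' ▸ hP') hnone
    have hy : x ∈ regOn O (region A x T) := by
      refine ⟨(H38.x_unit_of_setup hS).1, fun P' hP' => ?_⟩
      obtain ⟨c', hc', hc'P, -⟩ := hfin P' hP'
      exact (hasVal_of_ord_pos hc'P).ord_nonneg
    have hval := h _ hy
    obtain ⟨c, hc, hcP, hclsP⟩ := hfin P hP
    obtain ⟨c', hc', hc'Q, hclsQ⟩ := hfin Q hQ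
    rw [(hasVal_of_ord_pos hcP).val_eq, (hasVal_of_ord_pos hc'Q).val_eq] at hval
    have hcc : c' - c ∈ A.nonunits := by
      have h1 := A.nonunits.neg_mem hval
      rwa [neg_sub] at h1
    rw [hclsP]
    exact cls_eq_some_of_center hc hcc hc'Q

/-- **(tauR)** On the region of `T ≠ univ`, tube parameters can be chosen among the test
functions. -/
theorem tau_of_setup (hS : H74.Setup K A F O x) (hR : RedHyp A O (H38.cls A x))
    {T : Set (Option (IsLocalRing.ResidueField A))} (hT : T ≠ Set.univ) :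
    ∀ P ∈ region A x T, ∃ τ ∈ regOn O (region A x T), τ⁻¹ ∈ O ∧ P.ord τ = 1 ∧
      ∀ P' : Place K F, H38.cls A x P' = H38.cls A x P → P' ≠ P → P'.ord τ = 0 := by
  classical
  intro P hP
  rw [mem_region] at hP
  obtain ⟨τ, hτO, hτO', hτP, hτcls⟩ := hR.tau P
  have hτ0 : τ ≠ 0 := by
    rintro rfl
    rw [Place.ord_zero] at hτP
    exact zero_ne_one hτP
  obtain ⟨D, hD, -⟩ := hR.prin τ hτ0
  -- the poles of `τ` in the region
  set S : Finset (Place K F) :=
    D.support.filter (fun Q => H38.cls A x Q ∈ T ∧ Q.ord τ < 0) with hS_def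
  have hSmem : ∀ Q, Q ∈ S ↔ H38.cls A x Q ∈ T ∧ Q.ord τ < 0 := by
    intro Q
    rw [hS_def, Finset.mem_filter, Finsupp.mem_support_iff, hD]
    exact ⟨fun h => h.2, fun h => ⟨by have := h.2; omega, h⟩⟩
  have hτnn : ∀ P' : Place K F, H38.cls A x P' = H38.cls A x P → 0 ≤ P'.ord τ := by
    intro P' hP'
    by_cases hPP : P' = P
    · rw [hPP, hτP]
      exact zero_le_one
    · rw [hτcls P' hP' hPP]
  have hex : ∀ Q ∈ S, ∃ r : F, r ∈ O ∧ r⁻¹ ∈ O ∧ r ≠ 0 ∧ 0 < Q.ord r ∧
      (∀ P' : Place K F, H38.cls A x P' ∈ T → 0 ≤ P'.ord r) ∧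
      (∀ P' : Place K F, H38.cls A x P' = H38.cls A x P → P'.ord r = 0) := by
    intro Q hQ
    obtain ⟨hQT, hQτ⟩ := (hSmem Q).mp hQ
    refine exists_clear hS hT Q hQT (H38.cls A x P) hP ?_
    intro hcls
    have := hτnn Q hcls.symm
    omega
  choose! r hrO hrO' hr0 hrQ hrreg hrunit using hex
  set n : Place K F → ℕ := fun Q => (-(Q.ord τ)).toNat with hn_def
  set ρ : F := ∏ Q ∈ S, r Q ^ n Q with hρ_def
  have hρ0 : ρ ≠ 0 := Finset.prod_ne_zero_iff.mpr fun Q hQ => pow_ne_zero _ (hr0 Q hQ)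
  have hord : ∀ P' : Place K F, P'.ord ρ = ∑ Q ∈ S, (n Q : ℤ) * P'.ord (r Q) := by
    intro P'
    rw [hρ_def, (Fermat.Agent.S24.H52.isAddVal_ord P').map_prod S _
      (fun Q hQ => pow_ne_zero _ (hr0 Q hQ))]
    exact Finset.sum_congr rfl fun Q _ => ord_pow P' (r Q) (n Q)
  have hρO : ρ ∈ O := prod_mem fun Q hQ => pow_mem (hrO Q hQ) _
  have hρO' : ρ⁻¹ ∈ O := by
    rw [hρ_def, ← Finset.prod_inv_distrib]
    refine prod_mem fun Q hQ => ?_
    rw [← inv_pow]
    exact pow_mem (hrO' Q hQ) _
  refine ⟨τ * ρ, ⟨mul_mem hτO hρO, ?_⟩, ?_, ?_, ?_⟩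
  · intro P' hP'
    rw [mem_region] at hP'
    rw [P'.ord_mul hτ0 hρ0, hord P']
    have hnn : ∀ Q ∈ S, 0 ≤ (n Q : ℤ) * P'.ord (r Q) := fun Q hQ =>
      mul_nonneg (Int.natCast_nonneg _) (hrreg Q hQ P' hP')
    by_cases hneg : P'.ord τ < 0
    · have hP'S : P' ∈ S := (hSmem P').mpr ⟨hP', hneg⟩
      have h1 : (n P' : ℤ) * P'.ord (r P') ≤ ∑ Q ∈ S, (n Q : ℤ) * P'.ord (r Q) :=
        Finset.single_le_sum (f := fun Q => (n Q : ℤ) * P'.ord (r Q)) hnn hP'S
      have h2 : (n P' : ℤ) = -(P'.ord τ) := Int.toNat_of_nonneg (by omega)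
      have h3 : (n P' : ℤ) ≤ (n P' : ℤ) * P'.ord (r P') := by
        have h4 := hrQ P' hP'S
        have h5 : (0 : ℤ) ≤ (n P' : ℤ) := Int.natCast_nonneg _
        nlinarith
      omega
    · have h1 : 0 ≤ ∑ Q ∈ S, (n Q : ℤ) * P'.ord (r Q) := Finset.sum_nonneg hnn
      omega
  · rw [mul_inv]
    exact mul_mem hτO' hρO'
  · rw [P.ord_mul hτ0 hρ0, hτP, hord P,
      Finset.sum_eq_zero (fun Q hQ => by rw [hrunit Q hQ P rfl, mul_zero]), add_zero]
  · intro P' hcls hne
    rw [P'.ord_mul hτ0 hρ0, hτcls P' hcls hne, hord P',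
      Finset.sum_eq_zero (fun Q hQ => by rw [hrunit Q hQ P' hcls, mul_zero]), add_zero]

/-- **(hcong)** Two places of the region of `T ≠ univ` at which all test functions take congruent
values differ by an element of `locOne`. -/
theorem cong_of_setup (hS : H74.Setup K A F O x) (hR : RedHyp A O (H38.cls A x))
    {T : Set (Option (IsLocalRing.ResidueField A))} (hT : T ≠ Set.univ) :
    ∀ P ∈ region A x T, ∀ Q ∈ region A x T,
      (∀ y ∈ regOn O (region A x T), val P y - val Q y ∈ A.nonunits) →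
        Finsupp.single Q (1 : ℤ) - Finsupp.single P 1 ∈ locOne O (H38.cls A x) :=
  cong_of_sep_tau hR (region A x T) (regOn O (region A x T)) regOn_reg (sep_of_setup hS hT)
    (tau_of_setup hS hR hT)

/-- **Matching on a region.** `D₁, D₂ ≥ 0` supported in the region of `T ≠ univ`; if
`∏_{P ∈ D₁} (x₀ - y(P)) ≡ ∏_{P ∈ D₂} (x₀ - y(P)) mod m_A` for all `x₀ ∈ A` and all
Gauss-integral `y` without poles on the region, then `D₁ - D₂ ∈ locOne`. -/
theorem sub_mem_locOne_region (hS : H74.Setup K A F O x) (hR : RedHyp A O (H38.cls A x))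
    {T : Set (Option (IsLocalRing.ResidueField A))} (hT : T ≠ Set.univ)
    (D₁ D₂ : Place K F →₀ ℤ) (h₁ : ∀ P, 0 ≤ D₁ P) (h₂ : ∀ P, 0 ≤ D₂ P)
    (h₁R : ∀ P, D₁ P ≠ 0 → H38.cls A x P ∈ T) (h₂R : ∀ P, D₂ P ≠ 0 → H38.cls A x P ∈ T)
    (hprod : ∀ y ∈ O, (∀ P : Place K F, H38.cls A x P ∈ T → 0 ≤ P.ord y) → ∀ x₀ ∈ A,
      D₁.prod (fun P n => (x₀ - val P y) ^ n.toNat) -
        D₂.prod (fun P n => (x₀ - val P y) ^ n.toNat) ∈ A.nonunits) :
    D₁ - D₂ ∈ locOne O (H38.cls A x) := by
  have := H38.isAlgClosed_residueField A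
  have : Infinite (IsLocalRing.ResidueField A) := IsAlgClosed.instInfinite
  exact sub_mem_locOne_of_prod_congr hR (region A x T) region_cls (regOn O (region A x T))
    (zero_mem_regOn _) add_mem_regOn (smul_mem_regOn hR.mem_iff) regOn_subset regOn_reg
    (cong_of_setup hS hR hT) D₁ D₂ h₁ h₂ h₁R h₂R
    (fun y hy x₀ hx₀ => hprod y hy.1 hy.2 x₀ hx₀)

end main

end Fermat.Agent.S37.H81
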