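/-
S37 / P-E (E-b) (helper81): the regions "`j` integral" / "`j` not integral" in terms of the residue
discs of a Hauptmodul `x`.

Abstract form: `j, x ∈ F` with `j * x = p(x)`, `p` monic of degree `≥ 2` with coefficients in `A` and
`p(0)` a unit of `A` (for `X₀(2)`: `p = (X + 16)^3`, for `X₀(3)`: `p = (X + 27) (X + 3)^3`).  Then
for every place `P`:

  `j` has a centre in `A` at `P`   ⟺   `x` has a centre at `P` which is a unit of `A`.

In class language (`H38.cls`): `cls A j P ≠ none ↔ ∃ u ≠ 0, cls A x P = some u`, i.e. the region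
`I` is the region of the classes `some u`, `u ≠ 0`, of `x`, and its complement `C` is the region of
the two classes `none`, `some 0`.  Both sets of classes are proper, so `Region.lean` applies.
-/
import Fermat.Agent.S37.H81.Region

set_option autoImplicit false

open AlgebraicCurve IntermediateField Polynomial

noncomputable section

namespace Fermat.Agent.S37.H81

open Fermat.Agent.S37.H36
open Fermat.Agent.S18

variable {K : Type*} [Field K] {F : Type*} [Field F] [Algebra K F]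

/-! ### Polynomials with coefficients in `A` -/

section poly

variable {A : ValuationSubring K}

theorem eval_mem_of_coeff_mem {p : K[X]} (hp : ∀ i, p.coeff i ∈ A) {c : K} (hc : c ∈ A) :
    p.eval c ∈ A := by
  rw [eval_eq_sum_range]
  exact sum_mem fun i _ => mul_mem (hp i) (pow_mem hc i)

theorem eval_sub_coeff_zero_mem {p : K[X]} (hp : ∀ i, p.coeff i ∈ A) {c : K}
    (hc : c ∈ A.nonunits) : p.eval c - p.coeff 0 ∈ A.nonunits := by
  rw [eval_eq_sum_range, Finset.sum_range_succ', pow_zero, mul_one, add_sub_cancel_right]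
  refine sum_mem fun i _ => ?_
  rw [pow_succ]
  exact mul_mem_nonunits (hp _) (mul_mem_nonunits (pow_mem (A.nonunits_subset hc) i) hc)

theorem coeff_mem_of_mem_lifts {p : K[X]} (h : p ∈ Polynomial.lifts A.subtype) (i : ℕ) :
    p.coeff i ∈ A := by
  obtain ⟨a, ha⟩ := (Polynomial.lifts_iff_coeff_lifts p).mp h i
  rw [← ha]
  exact a.2

theorem C_mem_lifts_of_mem {a : K} (ha : a ∈ A) : (C a : K[X]) ∈ Polynomial.lifts A.subtype :=
  Polynomial.C_mem_lifts A.subtype ⟨a, ha⟩

theorem not_mem_nonunits_of_inv_mem {a : K} (ha0 : a ≠ 0) (ha : a⁻¹ ∈ A) : a ∉ A.nonunits := by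
  intro h
  rcases A.mem_nonunits_iff_or.mp h with h1 | h1
  · exact ha0 h1
  · exact h1 ha

theorem natCast_mem' (n : ℕ) : (n : K) ∈ A := natCast_mem A n

end poly

/-! ### Values of polynomials at a place -/

section val

variable {P : Place K F}

theorem HasVal.pow {f : F} {a : K} (hf : HasVal P f a) (n : ℕ) : HasVal P (f ^ n) (a ^ n) := by
  induction n with
  | zero =>
    rw [pow_zero, pow_zero]
    have h := hasVal_const (P := P) (1 : K)
    rwa [map_one] at h
  | succ n ih =>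
    rw [pow_succ, pow_succ]
    exact ih.mul hf

theorem hasVal_aeval {f : F} {c : K} (hf : HasVal P f c) (p : K[X]) :
    HasVal P (aeval f p) (p.eval c) := by
  induction p using Polynomial.induction_on' with
  | add p q hp hq =>
    rw [map_add, eval_add]
    exact hp.add hq
  | monomial n a =>
    rw [aeval_monomial, eval_monomial]
    exact (hasVal_const a).mul (hf.pow n)

end val

/-! ### The class of a place: centres -/

section cls

variable (A : ValuationSubring K)

/-- A place is not in the class at infinity of `y` iff `y` has a centre in `A` there. -/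
theorem cls_ne_none_iff (y : F) (P : Place K F) :
    H38.cls A y P ≠ none ↔ ∃ a : K, a ∈ A ∧ 0 < P.ord (y - algebraMap K F a) := by
  classical
  unfold H38.cls
  constructor
  · intro h
    by_cases hex : ∃ c : A, 0 < P.ord (y - algebraMap K F (c : K))
    · obtain ⟨c, hc⟩ := hex
      exact ⟨c, c.2, hc⟩
    · rw [dif_neg hex] at h
      exact absurd rfl h
  · rintro ⟨a, ha, haP⟩
    rw [dif_pos ⟨⟨a, ha⟩, haP⟩]
    exact Option.some_ne_none _

/-- A place is in a class `some u`, `u ≠ 0`, of `y` iff `y` has a centre there which is a unit of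
`A`. -/
theorem cls_eq_some_unit_iff (y : F) (P : Place K F) :
    (∃ u : IsLocalRing.ResidueField A, u ≠ 0 ∧ H38.cls A y P = some u) ↔
      ∃ c : K, c ∈ A ∧ c ∉ A.nonunits ∧ 0 < P.ord (y - algebraMap K F c) := by
  have hres : ∀ (c : K) (hc : c ∈ A),
      IsLocalRing.residue A ⟨c, hc⟩ = 0 ↔ c ∈ A.nonunits := by
    intro c hc
    rw [IsLocalRing.residue_eq_zero_iff, ← ValuationSubring.coe_mem_nonunits_iff]
  constructor
  · rintro ⟨u, hu, hcls⟩
    obtain ⟨c, hc, hcP⟩ := (cls_ne_none_iff A y P).mp (by rw [hcls]; exact Option.some_ne_none _)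
    have h1 : H38.cls A y P = some (IsLocalRing.residue A ⟨c, hc⟩) :=
      cls_eq_some_of_center hc (by rw [sub_self]; exact A.nonunits.zero_mem) hcP
    refine ⟨c, hc, fun hcm => hu ?_, hcP⟩
    rw [h1] at hcls
    rw [← Option.some.inj hcls]
    exact (hres c hc).mpr hcm
  · rintro ⟨c, hc, hcu, hcP⟩
    exact ⟨IsLocalRing.residue A ⟨c, hc⟩, fun h => hcu ((hres c hc).mp h),
      cls_eq_some_of_center hc (by rw [sub_self]; exact A.nonunits.zero_mem) hcP⟩

end cls

/-! ### The Hauptmodul relation -/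

section haupt

variable [IsAlgClosed K] {A : ValuationSubring K} {j x : F}

/-- If `j * x = p(x)` with `p` monic of degree `≥ 2` and `x` is not a constant, then `j` is not a
constant. -/
theorem ne_const_of_rel [Algebra.IsAlgebraic K⟮x⟯ F] {p : K[X]} (hmon : p.Monic)
    (hdeg : 2 ≤ p.natDegree) (hrel : j * x = aeval x p) (P : Place K F) (a : K) :
    j ≠ algebraMap K F a := by
  intro hj
  have hq : aeval x (p - C a * X) = 0 := by
    rw [map_sub, map_mul, aeval_C, aeval_X, ← hrel, hj, sub_self]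
  have hq0 : p - C a * X ≠ 0 := by
    intro h0
    have h1 := congrArg (fun q : K[X] => q.coeff p.natDegree) h0
    simp only [coeff_sub, coeff_C_mul, coeff_X, coeff_zero] at h1
    rw [if_neg (by omega), mul_zero, sub_zero, coeff_natDegree, hmon.leadingCoeff] at h1
    exact one_ne_zero h1
  obtain ⟨a', ha'⟩ := H38.exists_algebraMap_eq_of_isAlgebraic (K := K) (f := x) ⟨_, hq0, hq⟩
  exact Fermat.Agent.S24.H94.ne_algebraMap x P a' ha'.symm

/-- **(E-b), centre form.** `j` has a centre in `A` at `P` iff `x` has a centre at `P` which is a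
unit of `A`. -/
theorem haupt_center_iff [Algebra.IsAlgebraic K⟮x⟯ F] {p : K[X]} (hpA : ∀ i, p.coeff i ∈ A)
    (hmon : p.Monic) (hdeg : 2 ≤ p.natDegree) (hp0 : p.coeff 0 ∉ A.nonunits)
    (hrel : j * x = aeval x p) (P : Place K F) :
    (∃ a : K, a ∈ A ∧ 0 < P.ord (j - algebraMap K F a)) ↔
      ∃ c : K, c ∈ A ∧ c ∉ A.nonunits ∧ 0 < P.ord (x - algebraMap K F c) := by
  constructor
  · rintro ⟨a, ha, haP⟩
    have hj := hasVal_of_ord_pos haP
    rcases cls_fin_or_inf A x P with ⟨c, hc, hcP, -⟩ | ⟨e, he, heP, hx0, -⟩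
    · refine ⟨c, hc, ?_, hcP⟩
      intro hcm
      have hx := hasVal_of_ord_pos hcP
      have h1 : a * c = p.eval c := by
        have h2 := (hj.mul hx).val_eq
        rw [hrel, (hasVal_aeval hx p).val_eq] at h2
        exact h2.symm
      have h3 := eval_sub_coeff_zero_mem hpA hcm
      rw [← h1] at h3
      have h5 := A.nonunits.sub_mem (mul_mem_nonunits ha hcm) h3
      rw [sub_sub_cancel] at h5
      exact hp0 h5
    · exfalso
      have hx := hasVal_of_ord_pos heP
      obtain ⟨m, hm⟩ : ∃ m, p.natDegree = m + 1 + 1 := ⟨p.natDegree - 2, by omega⟩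
      have key : j * x⁻¹ ^ (m + 1) = aeval x⁻¹ p.reverse := by
        let _ := invertibleOfNonzero hx0
        have h := eval₂_reverse_mul_pow (algebraMap K F) x p
        rw [invOf_eq_inv, ← aeval_def, ← aeval_def, ← hrel, hm] at h
        have h3 : aeval x⁻¹ p.reverse = aeval x⁻¹ p.reverse * x ^ (m + 1 + 1) * x⁻¹ ^ (m + 1 + 1) := by
          rw [mul_assoc, ← mul_pow, mul_inv_cancel₀ hx0, one_pow, mul_one]
        rw [h3, h, pow_succ x⁻¹ (m + 1)]
        field_simp
      have h1 : a * e ^ (m + 1) = p.reverse.eval e := by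
        have h2 := (hj.mul (hx.pow (m + 1))).val_eq
        rw [key, (hasVal_aeval hx p.reverse).val_eq] at h2
        exact h2.symm
      have hrevA : ∀ i, p.reverse.coeff i ∈ A := fun i => by
        rw [coeff_reverse]
        exact hpA _
      have h3 := eval_sub_coeff_zero_mem hrevA he
      rw [← h1, coeff_zero_reverse, hmon.leadingCoeff] at h3
      have h4 : a * e ^ (m + 1) ∈ A.nonunits := by
        rw [pow_succ]
        exact mul_mem_nonunits ha (mul_mem_nonunits (pow_mem (A.nonunits_subset he) m) he)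
      have h5 := A.nonunits.sub_mem h4 h3
      rw [sub_sub_cancel] at h5
      exact one_not_mem_nonunits h5
  · rintro ⟨c, hc, hcu, hcP⟩
    have hx := hasVal_of_ord_pos hcP
    have hc0 : c ≠ 0 := fun h => hcu (h ▸ A.nonunits.zero_mem)
    have hcinv : c⁻¹ ∈ A := by
      by_contra h
      exact hcu (A.mem_nonunits_iff_or.mpr (Or.inr h))
    have hx0 : x ≠ 0 := hx.ne_zero hc0
    have hj : HasVal P j (p.eval c / c) := by
      have h1 : j = aeval x p / x := by
        rw [← hrel]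
        field_simp
      rw [h1]
      exact (hasVal_aeval hx p).div hx hc0
    refine ⟨p.eval c / c, ?_, ?_⟩
    · rw [div_eq_mul_inv]
      exact mul_mem (eval_mem_of_coeff_mem hpA hc) hcinv
    · have h1 := hj.sub (hasVal_const (p.eval c / c))
      rw [sub_self] at h1
      exact h1.ord_pos (sub_ne_zero.mpr (ne_const_of_rel hmon hdeg hrel P _))

/-- **(E-b), class form.** `P` is not in the class at infinity of `j` iff it is in a class
`some u`, `u ≠ 0`, of `x`. -/
theorem cls_haupt_iff [Algebra.IsAlgebraic K⟮x⟯ F] {p : K[X]} (hpA : ∀ i, p.coeff i ∈ A)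
    (hmon : p.Monic) (hdeg : 2 ≤ p.natDegree) (hp0 : p.coeff 0 ∉ A.nonunits)
    (hrel : j * x = aeval x p) (P : Place K F) :
    H38.cls A j P ≠ none ↔ ∃ u : IsLocalRing.ResidueField A, u ≠ 0 ∧ H38.cls A x P = some u :=
  (cls_ne_none_iff A j P).trans
    ((haupt_center_iff hpA hmon hdeg hp0 hrel P).trans (cls_eq_some_unit_iff A x P).symm)

end haupt

/-! ### The sets of classes -/

section sets

variable (A : ValuationSubring K)

/-- The finite classes. -/
def finCls : Set (Option (IsLocalRing.ResidueField A)) := {d | d ≠ none}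

/-- The class at infinity. -/
def infCls : Set (Option (IsLocalRing.ResidueField A)) := {d | d = none}

/-- The unit classes `some u`, `u ≠ 0`. -/
def unitCls : Set (Option (IsLocalRing.ResidueField A)) :=
  {d | ∃ u : IsLocalRing.ResidueField A, u ≠ 0 ∧ d = some u}

/-- The two classes `none` and `some 0`. -/
def cuspCls : Set (Option (IsLocalRing.ResidueField A)) := {d | d = none ∨ d = some 0}

theorem finCls_ne_univ : finCls A ≠ Set.univ :=
  (Set.ne_univ_iff_exists_notMem _).mpr ⟨none, fun h => h rfl⟩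

theorem infCls_ne_univ : infCls A ≠ Set.univ :=
  (Set.ne_univ_iff_exists_notMem _).mpr ⟨some 0, fun h => Option.some_ne_none _ h⟩

theorem unitCls_ne_univ : unitCls A ≠ Set.univ :=
  (Set.ne_univ_iff_exists_notMem _).mpr ⟨none, fun ⟨_, _, h⟩ => Option.some_ne_none _ h.symm⟩

theorem cuspCls_ne_univ : cuspCls A ≠ Set.univ := by
  refine (Set.ne_univ_iff_exists_notMem _).mpr ⟨some 1, ?_⟩
  rintro (h | h)
  · exact Option.some_ne_none _ h
  · exact one_ne_zero (Option.some.inj h)

variable {A}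

theorem mem_infCls_iff_not_mem_finCls {d : Option (IsLocalRing.ResidueField A)} :
    d ∈ infCls A ↔ d ∉ finCls A := by
  show d = none ↔ ¬ d ≠ none
  rw [not_not]

theorem mem_cuspCls_iff_not_mem_unitCls {d : Option (IsLocalRing.ResidueField A)} :
    d ∈ cuspCls A ↔ d ∉ unitCls A := by
  constructor
  · rintro (h | h) ⟨u, hu, hd⟩
    · rw [h] at hd
      exact Option.some_ne_none _ hd.symm
    · rw [h] at hd
      exact hu (Option.some.inj hd).symm
  · intro h
    rcases d with _ | u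
    · exact Or.inl rfl
    · right
      by_contra hu
      exact h ⟨u, fun h0 => hu (by rw [h0]), rfl⟩

end sets

/-! ### The regions of a Hauptmodul -/

section regions

variable [IsAlgClosed K] {A : ValuationSubring K} {O : ValuationSubring F} {j x : F}

/-- **(E-b), region `I`.** -/
theorem region_unit_eq [Algebra.IsAlgebraic K⟮x⟯ F] {p : K[X]} (hpA : ∀ i, p.coeff i ∈ A)
    (hmon : p.Monic) (hdeg : 2 ≤ p.natDegree) (hp0 : p.coeff 0 ∉ A.nonunits)
    (hrel : j * x = aeval x p) : region A x (unitCls A) = region A j (finCls A) := by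
  ext P
  exact (cls_haupt_iff hpA hmon hdeg hp0 hrel P).symm

/-- **(E-b), region `C`.** -/
theorem region_cusp_eq [Algebra.IsAlgebraic K⟮x⟯ F] {p : K[X]} (hpA : ∀ i, p.coeff i ∈ A)
    (hmon : p.Monic) (hdeg : 2 ≤ p.natDegree) (hp0 : p.coeff 0 ∉ A.nonunits)
    (hrel : j * x = aeval x p) : region A x (cuspCls A) = region A j (infCls A) := by
  ext P
  rw [mem_region, mem_region, mem_cuspCls_iff_not_mem_unitCls, mem_infCls_iff_not_mem_finCls]
  exact not_congr (cls_haupt_iff hpA hmon hdeg hp0 hrel P).symm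

/-- Matching on the region "`j` integral" of a Hauptmodul `x` (`j * x = p(x)`). -/
theorem sub_mem_locOne_haupt_fin (hS : H74.Setup K A F O x) (hR : RedHyp A O (H38.cls A x))
    {p : K[X]} (hpA : ∀ i, p.coeff i ∈ A) (hmon : p.Monic) (hdeg : 2 ≤ p.natDegree)
    (hp0 : p.coeff 0 ∉ A.nonunits) (hrel : j * x = aeval x p)
    (D₁ D₂ : Place K F →₀ ℤ) (h₁ : ∀ P, 0 ≤ D₁ P) (h₂ : ∀ P, 0 ≤ D₂ P)
    (h₁R : ∀ P, D₁ P ≠ 0 → H38.cls A j P ≠ none) (h₂R : ∀ P, D₂ P ≠ 0 → H38.cls A j P ≠ none)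
    (hprod : ∀ y ∈ O, (∀ P : Place K F, H38.cls A j P ≠ none → 0 ≤ P.ord y) → ∀ x₀ ∈ A,
      D₁.prod (fun P n => (x₀ - val P y) ^ n.toNat) -
        D₂.prod (fun P n => (x₀ - val P y) ^ n.toNat) ∈ A.nonunits) :
    D₁ - D₂ ∈ locOne O (H38.cls A x) := by
  have := hS.finite
  have hiff := fun P : Place K F => cls_haupt_iff hpA hmon hdeg hp0 hrel P
  exact sub_mem_locOne_region hS hR (unitCls_ne_univ A) D₁ D₂ h₁ h₂
    (fun P h => (hiff P).mp (h₁R P h)) (fun P h => (hiff P).mp (h₂R P h))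
    (fun y hy hreg x₀ hx₀ => hprod y hy (fun P hP => hreg P ((hiff P).mp hP)) x₀ hx₀)

/-- Matching on the region "`j` not integral" of a Hauptmodul `x` (`j * x = p(x)`). -/
theorem sub_mem_locOne_haupt_inf (hS : H74.Setup K A F O x) (hR : RedHyp A O (H38.cls A x))
    {p : K[X]} (hpA : ∀ i, p.coeff i ∈ A) (hmon : p.Monic) (hdeg : 2 ≤ p.natDegree)
    (hp0 : p.coeff 0 ∉ A.nonunits) (hrel : j * x = aeval x p)
    (D₁ D₂ : Place K F →₀ ℤ) (h₁ : ∀ P, 0 ≤ D₁ P) (h₂ : ∀ P, 0 ≤ D₂ P)
    (h₁R : ∀ P, D₁ P ≠ 0 → H38.cls A j P = none) (h₂R : ∀ P, D₂ P ≠ 0 → H38.cls A j P = none)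
    (hprod : ∀ y ∈ O, (∀ P : Place K F, H38.cls A j P = none → 0 ≤ P.ord y) → ∀ x₀ ∈ A,
      D₁.prod (fun P n => (x₀ - val P y) ^ n.toNat) -
        D₂.prod (fun P n => (x₀ - val P y) ^ n.toNat) ∈ A.nonunits) :
    D₁ - D₂ ∈ locOne O (H38.cls A x) := by
  have := hS.finite
  have hiff : ∀ P : Place K F, H38.cls A j P = none ↔ H38.cls A x P ∈ cuspCls A := by
    intro P
    rw [mem_cuspCls_iff_not_mem_unitCls]
    constructor
    · intro h hu
      exact (cls_haupt_iff hpA hmon hdeg hp0 hrel P).mpr hu h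
    · intro h
      by_contra hne
      exact h ((cls_haupt_iff hpA hmon hdeg hp0 hrel P).mp hne)
  exact sub_mem_locOne_region hS hR (cuspCls_ne_univ A) D₁ D₂ h₁ h₂
    (fun P h => (hiff P).mp (h₁R P h)) (fun P h => (hiff P).mp (h₂R P h))
    (fun y hy hreg x₀ hx₀ => hprod y hy (fun P hP => hreg P ((hiff P).mp hP)) x₀ hx₀)

/-- Matching on the finite classes of the base function. -/
theorem sub_mem_locOne_fin (hS : H74.Setup K A F O x) (hR : RedHyp A O (H38.cls A x))
    (D₁ D₂ : Place K F →₀ ℤ) (h₁ : ∀ P, 0 ≤ D₁ P) (h₂ : ∀ P, 0 ≤ D₂ P)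
    (h₁R : ∀ P, D₁ P ≠ 0 → H38.cls A x P ≠ none) (h₂R : ∀ P, D₂ P ≠ 0 → H38.cls A x P ≠ none)
    (hprod : ∀ y ∈ O, (∀ P : Place K F, H38.cls A x P ≠ none → 0 ≤ P.ord y) → ∀ x₀ ∈ A,
      D₁.prod (fun P n => (x₀ - val P y) ^ n.toNat) -
        D₂.prod (fun P n => (x₀ - val P y) ^ n.toNat) ∈ A.nonunits) :
    D₁ - D₂ ∈ locOne O (H38.cls A x) :=
  sub_mem_locOne_region hS hR (finCls_ne_univ A) D₁ D₂ h₁ h₂ h₁R h₂R hprod

/-- Matching on the class at infinity of the base function. -/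
theorem sub_mem_locOne_inf (hS : H74.Setup K A F O x) (hR : RedHyp A O (H38.cls A x))
    (D₁ D₂ : Place K F →₀ ℤ) (h₁ : ∀ P, 0 ≤ D₁ P) (h₂ : ∀ P, 0 ≤ D₂ P)
    (h₁R : ∀ P, D₁ P ≠ 0 → H38.cls A x P = none) (h₂R : ∀ P, D₂ P ≠ 0 → H38.cls A x P = none)
    (hprod : ∀ y ∈ O, (∀ P : Place K F, H38.cls A x P = none → 0 ≤ P.ord y) → ∀ x₀ ∈ A,
      D₁.prod (fun P n => (x₀ - val P y) ^ n.toNat) -
        D₂.prod (fun P n => (x₀ - val P y) ^ n.toNat) ∈ A.nonunits) :
    D₁ - D₂ ∈ locOne O (H38.cls A x) :=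
  sub_mem_locOne_region hS hR (infCls_ne_univ A) D₁ D₂ h₁ h₂ h₁R h₂R hprod

end regions

/-! ### The two explicit Hauptmoduln -/

section explicit

variable {A : ValuationSubring K}

/-- The polynomial of the Hauptmodul of `X₀(2)`: `j x = (x + 16)^3`. -/
def hauptPolyTwo (K : Type*) [Field K] : K[X] := (X + C 16) ^ 3

/-- The polynomial of the Hauptmodul of `X₀(3)`: `j x = (x + 27) (x + 3)^3`. -/
def hauptPolyThree (K : Type*) [Field K] : K[X] := (X + C 27) * (X + C 3) ^ 3

theorem hauptPolyTwo_spec (h2 : (2 : K) ≠ 0) (h2' : (2 : K)⁻¹ ∈ A) :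
    (∀ i, (hauptPolyTwo K).coeff i ∈ A) ∧ (hauptPolyTwo K).Monic ∧
      2 ≤ (hauptPolyTwo K).natDegree ∧ (hauptPolyTwo K).coeff 0 ∉ A.nonunits := by
  refine ⟨?_, (monic_X_add_C (16 : K)).pow 3, ?_, ?_⟩
  · exact coeff_mem_of_mem_lifts (pow_mem (add_mem (X_mem_lifts _)
      (C_mem_lifts_of_mem (ofNat_mem A 16))) 3)
  · rw [hauptPolyTwo, natDegree_pow_X_add_C]
    norm_num
  · have h0 : (hauptPolyTwo K).coeff 0 = 2 ^ 12 := by
      rw [coeff_zero_eq_eval_zero, hauptPolyTwo, eval_pow, eval_add, eval_X, eval_C, zero_add]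
      norm_num
    rw [h0]
    refine not_mem_nonunits_of_inv_mem (pow_ne_zero _ h2) ?_
    rw [← inv_pow]
    exact pow_mem h2' 12

theorem hauptPolyThree_spec (h3 : (3 : K) ≠ 0) (h3' : (3 : K)⁻¹ ∈ A) :
    (∀ i, (hauptPolyThree K).coeff i ∈ A) ∧ (hauptPolyThree K).Monic ∧
      2 ≤ (hauptPolyThree K).natDegree ∧ (hauptPolyThree K).coeff 0 ∉ A.nonunits := by
  have hmon : (hauptPolyThree K).Monic :=
    (monic_X_add_C (27 : K)).mul ((monic_X_add_C (3 : K)).pow 3)
  refine ⟨?_, hmon, ?_, ?_⟩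
  · exact coeff_mem_of_mem_lifts (mul_mem (add_mem (X_mem_lifts _)
      (C_mem_lifts_of_mem (ofNat_mem A 27))) (pow_mem (add_mem (X_mem_lifts _)
      (C_mem_lifts_of_mem (ofNat_mem A 3))) 3))
  · rw [hauptPolyThree, (monic_X_add_C (27 : K)).natDegree_mul ((monic_X_add_C (3 : K)).pow 3),
      natDegree_X_add_C, natDegree_pow_X_add_C]
    norm_num
  · have h0 : (hauptPolyThree K).coeff 0 = 3 ^ 6 := by
      rw [coeff_zero_eq_eval_zero, hauptPolyThree, eval_mul, eval_pow, eval_add, eval_add,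
        eval_X, eval_C, eval_C, zero_add, zero_add]
      norm_num
    rw [h0]
    refine not_mem_nonunits_of_inv_mem (pow_ne_zero _ h3) ?_
    rw [← inv_pow]
    exact pow_mem h3' 6

theorem aeval_hauptPolyTwo (x : F) : aeval x (hauptPolyTwo K) = (x + 16) ^ 3 := by
  rw [hauptPolyTwo, map_pow, map_add, aeval_X, aeval_C, map_ofNat]

theorem aeval_hauptPolyThree (x : F) :
    aeval x (hauptPolyThree K) = (x + 27) * (x + 3) ^ 3 := by
  rw [hauptPolyThree, map_mul, map_pow, map_add, map_add, aeval_X, aeval_C, aeval_C, map_ofNat,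
    map_ofNat]

variable [IsAlgClosed K] {j x : F} [Algebra.IsAlgebraic K⟮x⟯ F]

/-- **(E-b) for `X₀(2)`** (`2` a unit of `A`). -/
theorem cls_haupt_two_iff (h2 : (2 : K) ≠ 0) (h2' : (2 : K)⁻¹ ∈ A)
    (hrel : j * x = (x + 16) ^ 3) (P : Place K F) :
    H38.cls A j P ≠ none ↔ ∃ u : IsLocalRing.ResidueField A, u ≠ 0 ∧ H38.cls A x P = some u := by
  obtain ⟨h1, h2'', h3, h4⟩ := hauptPolyTwo_spec (A := A) h2 h2'
  exact cls_haupt_iff h1 h2'' h3 h4 (by rw [aeval_hauptPolyTwo]; exact hrel) P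

/-- **(E-b) for `X₀(3)`** (`3` a unit of `A`). -/
theorem cls_haupt_three_iff (h3 : (3 : K) ≠ 0) (h3' : (3 : K)⁻¹ ∈ A)
    (hrel : j * x = (x + 27) * (x + 3) ^ 3) (P : Place K F) :
    H38.cls A j P ≠ none ↔ ∃ u : IsLocalRing.ResidueField A, u ≠ 0 ∧ H38.cls A x P = some u := by
  obtain ⟨h1, h2, h3'', h4⟩ := hauptPolyThree_spec (A := A) h3 h3'
  exact cls_haupt_iff h1 h2 h3'' h4 (by rw [aeval_hauptPolyThree]; exact hrel) P

end explicit

end Fermat.Agent.S37.H81
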