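/-
S37 / P-E (helper81): bridge between helper46's integral region `H46.IN A M` (places where `jtop`
has a value in `A`) and the regions of classes of `Region.lean` / `Haupt.lean`, in the three cases
of the explicit base function (`x = jtop`; `x = h₂(qⁿ)`; `x = h₃(qⁿ)`), and the hypothesis `hcong`
of `H36.sub_mem_locOne_of_prod_congr` on `H46.IN A M` and on its complement.
-/
import Fermat.Agent.S37.H81.Haupt
import Fermat.Agent.S37.H46.RegionHaupt

set_option autoImplicit false

open AlgebraicCurve IntermediateField ModularCurve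

noncomputable section

namespace Fermat.Agent.S37.H81

open Fermat.Agent.S37.H36
open Fermat.Agent.S18 Fermat.Agent.S18.H74

/-! ### Discs and classes -/

section generic

variable {K : Type*} [Field K] {F : Type*} [Field F] [Algebra K F] (A : ValuationSubring K)
  (y : F) (P : Place K F)

theorem exists_inDisc_iff_mem_finCls :
    (∃ b : K, b ∈ A ∧ H74.InDisc A y b P) ↔ H38.cls A y P ∈ finCls A := by
  constructor
  · rintro ⟨b, hb, h⟩
    show H38.cls A y P ≠ none
    rw [(H38.cls_eq_some_iff A y hb P).mpr h]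
    exact Option.some_ne_none _
  · intro h
    obtain ⟨a, ha, haP⟩ := (cls_ne_none_iff A y P).mp h
    exact ⟨a, ha, a, by rw [sub_self]; exact A.nonunits.zero_mem, haP⟩

theorem inDisc_inv_iff_mem_infCls [IsAlgClosed K] [Algebra.IsAlgebraic K⟮y⟯ F] :
    H74.InDisc A y⁻¹ 0 P ↔ H38.cls A y P ∈ infCls A :=
  (H38.cls_eq_none_iff A y P).symm

theorem exists_unit_inDisc_iff_mem_unitCls :
    (∃ b : K, b ≠ 0 ∧ b ∈ A ∧ b⁻¹ ∈ A ∧ H74.InDisc A y b P) ↔ H38.cls A y P ∈ unitCls A := by
  show _ ↔ ∃ u : IsLocalRing.ResidueField A, u ≠ 0 ∧ H38.cls A y P = some u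
  rw [cls_eq_some_unit_iff]
  constructor
  · rintro ⟨b, hb0, hb, hbi, c, hcb, hc⟩
    have hcA : c ∈ A := by
      have h1 : c = (c - b) + b := by ring
      rw [h1]
      exact add_mem (A.nonunits_subset hcb) hb
    refine ⟨c, hcA, ?_, hc⟩
    intro hcm
    have hbm : b ∈ A.nonunits := by
      have h1 := A.nonunits.sub_mem hcm hcb
      rwa [sub_sub_cancel] at h1
    exact not_mem_nonunits_of_inv_mem hb0 hbi hbm
  · rintro ⟨c, hc, hcu, hcP⟩
    have hc0 : c ≠ 0 := fun h => hcu (h ▸ A.nonunits.zero_mem)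
    have hci : c⁻¹ ∈ A := by
      by_contra h
      exact hcu (A.mem_nonunits_iff_or.mpr (Or.inr h))
    exact ⟨c, hc0, hc, hci, c, by rw [sub_self]; exact A.nonunits.zero_mem, hcP⟩

theorem inDisc_zero_or_inv_iff_mem_cuspCls [IsAlgClosed K] [Algebra.IsAlgebraic K⟮y⟯ F] :
    (H74.InDisc A y 0 P ∨ H74.InDisc A y⁻¹ 0 P) ↔ H38.cls A y P ∈ cuspCls A := by
  show _ ↔ (H38.cls A y P = none ∨ H38.cls A y P = some 0)
  have h0 : (some (IsLocalRing.residue A ⟨0, A.zero_mem⟩) :
      Option (IsLocalRing.ResidueField A)) = some 0 :=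
    congrArg some (map_zero (IsLocalRing.residue A))
  constructor
  · rintro (h | h)
    · right
      rw [← h0]
      exact (H38.cls_eq_some_iff A y A.zero_mem P).mpr h
    · left
      exact (H38.cls_eq_none_iff A y P).mpr h
  · rintro (h | h)
    · right
      exact (H38.cls_eq_none_iff A y P).mp h
    · left
      exact (H38.cls_eq_some_iff A y A.zero_mem P).mp (by rw [h0]; exact h)

variable {A} {O : ValuationSubring F} {x : F} [IsAlgClosed K]

theorem inDisc_inv_iff_mem_infCls_of_setup (hS : H74.Setup K A F O x) (P : Place K F) :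
    H74.InDisc A x⁻¹ 0 P ↔ H38.cls A x P ∈ infCls A := by
  have := hS.finite
  exact inDisc_inv_iff_mem_infCls A x P

theorem inDisc_zero_or_inv_iff_mem_cuspCls_of_setup (hS : H74.Setup K A F O x) (P : Place K F) :
    (H74.InDisc A x 0 P ∨ H74.InDisc A x⁻¹ 0 P) ↔ H38.cls A x P ∈ cuspCls A := by
  have := hS.finite
  exact inDisc_zero_or_inv_iff_mem_cuspCls A x P

/-- `hRcls` and `hcong` of `H36.sub_mem_locOne_of_prod_congr` for a set of places which is the
region of a proper set of classes. -/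
theorem cong_of_region_eq (hS : H74.Setup K A F O x) (hR : RedHyp A O (H38.cls A x))
    {T : Set (Option (IsLocalRing.ResidueField A))} (hT : T ≠ Set.univ) {R : Set (Place K F)}
    (hRT : R = region A x T) :
    (∀ P ∈ R, ∀ P' : Place K F, H38.cls A x P' = H38.cls A x P → P' ∈ R) ∧
      ∀ P ∈ R, ∀ Q ∈ R, (∀ y ∈ regOn O R, val P y - val Q y ∈ A.nonunits) →
        Finsupp.single Q (1 : ℤ) - Finsupp.single P 1 ∈ locOne O (H38.cls A x) := by
  subst hRT
  exact ⟨region_cls, cong_of_setup hS hR hT⟩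

end generic

/-! ### The integral region of `F_M` -/

section FN

variable (A : ValuationSubring Kb)

section Top

variable (M : ℕ) [NeZero M]

theorem IN_eq_region_top : H46.IN A M = region A (H28.jtop M) (finCls A) := by
  ext P
  rw [H46.mem_IN_iff_inDisc, mem_region]
  exact exists_inDisc_iff_mem_finCls A _ P

variable {A M} {O : ValuationSubring (FN M)}

theorem compl_IN_eq_region_top (hS : H74.Setup Kb A (FN M) O (H28.jtop M)) :
    (H46.IN A M)ᶜ = region A (H28.jtop M) (infCls A) := by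
  ext P
  rw [Set.mem_compl_iff, H46.not_mem_IN_iff_inDisc, mem_region]
  exact inDisc_inv_iff_mem_infCls_of_setup hS P

/-- `x = jtop`: `hRcls` and `hcong` on the integral region. -/
theorem cong_IN_top (hS : H74.Setup Kb A (FN M) O (H28.jtop M))
    (hR : RedHyp A O (H38.cls A (H28.jtop M))) :
    (∀ P ∈ H46.IN A M, ∀ P' : Place Kb (FN M),
        H38.cls A (H28.jtop M) P' = H38.cls A (H28.jtop M) P → P' ∈ H46.IN A M) ∧
      ∀ P ∈ H46.IN A M, ∀ Q ∈ H46.IN A M,
        (∀ y ∈ regOn O (H46.IN A M), val P y - val Q y ∈ A.nonunits) →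
          Finsupp.single Q (1 : ℤ) - Finsupp.single P 1 ∈ locOne O (H38.cls A (H28.jtop M)) :=
  cong_of_region_eq hS hR (finCls_ne_univ A) (IN_eq_region_top A M)

/-- `x = jtop`: `hRcls` and `hcong` on the complement of the integral region. -/
theorem cong_compl_IN_top (hS : H74.Setup Kb A (FN M) O (H28.jtop M))
    (hR : RedHyp A O (H38.cls A (H28.jtop M))) :
    (∀ P ∈ (H46.IN A M)ᶜ, ∀ P' : Place Kb (FN M),
        H38.cls A (H28.jtop M) P' = H38.cls A (H28.jtop M) P → P' ∈ (H46.IN A M)ᶜ) ∧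
      ∀ P ∈ (H46.IN A M)ᶜ, ∀ Q ∈ (H46.IN A M)ᶜ,
        (∀ y ∈ regOn O (H46.IN A M)ᶜ, val P y - val Q y ∈ A.nonunits) →
          Finsupp.single Q (1 : ℤ) - Finsupp.single P 1 ∈ locOne O (H38.cls A (H28.jtop M)) :=
  cong_of_region_eq hS hR (infCls_ne_univ A) (compl_IN_eq_region_top hS)

end Top

section Two

variable (n N' : ℕ) [NeZero n] [NeZero N'] (hN' : N' = n * 2) {x : FN N'}
  (hx : (x : LaurentSeries Kb) = H24.hauptX2 Kb n) (h2 : (2 : Kb)⁻¹ ∈ A)

include hN' hx h2

theorem IN_eq_region_two : H46.IN A N' = region A x (unitCls A) := by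
  ext P
  rw [H46.mem_IN_iff_units_two A n N' hN' hx h2 P, mem_region]
  exact exists_unit_inDisc_iff_mem_unitCls A x P

variable {A} {O : ValuationSubring (FN N')}

theorem compl_IN_eq_region_two (hS : H74.Setup Kb A (FN N') O x) :
    (H46.IN A N')ᶜ = region A x (cuspCls A) := by
  ext P
  rw [Set.mem_compl_iff, H46.not_mem_IN_iff_two A n N' hN' hx h2 P, mem_region]
  exact inDisc_zero_or_inv_iff_mem_cuspCls_of_setup hS P

/-- Level two: `hRcls` and `hcong` on the integral region. -/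
theorem cong_IN_two (hS : H74.Setup Kb A (FN N') O x) (hR : RedHyp A O (H38.cls A x)) :
    (∀ P ∈ H46.IN A N', ∀ P' : Place Kb (FN N'),
        H38.cls A x P' = H38.cls A x P → P' ∈ H46.IN A N') ∧
      ∀ P ∈ H46.IN A N', ∀ Q ∈ H46.IN A N',
        (∀ y ∈ regOn O (H46.IN A N'), val P y - val Q y ∈ A.nonunits) →
          Finsupp.single Q (1 : ℤ) - Finsupp.single P 1 ∈ locOne O (H38.cls A x) :=
  cong_of_region_eq hS hR (unitCls_ne_univ A) (IN_eq_region_two A n N' hN' hx h2)

/-- Level two: `hRcls` and `hcong` on the complement of the integral region. -/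
theorem cong_compl_IN_two (hS : H74.Setup Kb A (FN N') O x) (hR : RedHyp A O (H38.cls A x)) :
    (∀ P ∈ (H46.IN A N')ᶜ, ∀ P' : Place Kb (FN N'),
        H38.cls A x P' = H38.cls A x P → P' ∈ (H46.IN A N')ᶜ) ∧
      ∀ P ∈ (H46.IN A N')ᶜ, ∀ Q ∈ (H46.IN A N')ᶜ,
        (∀ y ∈ regOn O (H46.IN A N')ᶜ, val P y - val Q y ∈ A.nonunits) →
          Finsupp.single Q (1 : ℤ) - Finsupp.single P 1 ∈ locOne O (H38.cls A x) :=
  cong_of_region_eq hS hR (cuspCls_ne_univ A) (compl_IN_eq_region_two n N' hN' hx h2 hS)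

end Two

section Three

variable (n N' : ℕ) [NeZero n] [NeZero N'] (hN' : N' = n * 3) {x : FN N'}
  (hx : (x : LaurentSeries Kb) = H24.hauptX3 Kb n) (h3 : (3 : Kb)⁻¹ ∈ A)

include hN' hx h3

theorem IN_eq_region_three : H46.IN A N' = region A x (unitCls A) := by
  ext P
  rw [H46.mem_IN_iff_units_three A n N' hN' hx h3 P, mem_region]
  exact exists_unit_inDisc_iff_mem_unitCls A x P

variable {A} {O : ValuationSubring (FN N')}

theorem compl_IN_eq_region_three (hS : H74.Setup Kb A (FN N') O x) :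
    (H46.IN A N')ᶜ = region A x (cuspCls A) := by
  ext P
  rw [Set.mem_compl_iff, H46.not_mem_IN_iff_three A n N' hN' hx h3 P, mem_region]
  exact inDisc_zero_or_inv_iff_mem_cuspCls_of_setup hS P

/-- Level three: `hRcls` and `hcong` on the integral region. -/
theorem cong_IN_three (hS : H74.Setup Kb A (FN N') O x) (hR : RedHyp A O (H38.cls A x)) :
    (∀ P ∈ H46.IN A N', ∀ P' : Place Kb (FN N'),
        H38.cls A x P' = H38.cls A x P → P' ∈ H46.IN A N') ∧
      ∀ P ∈ H46.IN A N', ∀ Q ∈ H46.IN A N',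
        (∀ y ∈ regOn O (H46.IN A N'), val P y - val Q y ∈ A.nonunits) →
          Finsupp.single Q (1 : ℤ) - Finsupp.single P 1 ∈ locOne O (H38.cls A x) :=
  cong_of_region_eq hS hR (unitCls_ne_univ A) (IN_eq_region_three A n N' hN' hx h3)

/-- Level three: `hRcls` and `hcong` on the complement of the integral region. -/
theorem cong_compl_IN_three (hS : H74.Setup Kb A (FN N') O x) (hR : RedHyp A O (H38.cls A x)) :
    (∀ P ∈ (H46.IN A N')ᶜ, ∀ P' : Place Kb (FN N'),
        H38.cls A x P' = H38.cls A x P → P' ∈ (H46.IN A N')ᶜ) ∧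
      ∀ P ∈ (H46.IN A N')ᶜ, ∀ Q ∈ (H46.IN A N')ᶜ,
        (∀ y ∈ regOn O (H46.IN A N')ᶜ, val P y - val Q y ∈ A.nonunits) →
          Finsupp.single Q (1 : ℤ) - Finsupp.single P 1 ∈ locOne O (H38.cls A x) :=
  cong_of_region_eq hS hR (cuspCls_ne_univ A) (compl_IN_eq_region_three n N' hN' hx h3 hS)

end Three

end FN

end Fermat.Agent.S37.H81
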